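import Fermat.Agent.S16.Defs
import Fermat.Agent.S16.H300.Bridge
import Fermat.Agent.S20.C0_helper516

/-!
# S16 / WP U2 in the exact skeleton shape (helper497)

`Fermat.Agent.S16.H497.U2` is, verbatim, the statement `Skel.U2` of
`origin/helper556:Fermat/Agent/S16/Skeleton.lean` (function level, `MF (Gamma0 p) 2`).
It is the bundled-form theorem `H300.prime_pow_dvd_24` of helper300 transported along
`C0h516.mem_MF_iff_exists`.
-/

set_option autoImplicit false

noncomputable section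

namespace Fermat.Agent.S16.H497

open UpperHalfPlane ModularForm CongruenceSubgroup MatrixGroups ModularFormClass
open Fermat.Agent.S20 (MF SF)
open scoped Manifold

/-- **WP U2 (skeleton shape).** If `G ∈ M₂(Γ₀(p))` has integral `q`-expansion congruent to a
unit constant modulo `ℓ ^ a`, then `ℓ ^ a ∣ 24`. -/
theorem U2 (p : ℕ) [Fact p.Prime] {G : ℍ → ℂ} (hG : G ∈ MF (Gamma0 p) 2)
    (ℓ : ℕ) (hℓ : ℓ.Prime) (a : ℕ) (s : ℤ) (hs : ¬ (ℓ : ℤ) ∣ s) (h0 : qCoeff G 0 = (s : ℂ))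
    (hcong : ∀ k : ℕ, 1 ≤ k → ∃ m : ℤ, qCoeff G k = ((ℓ : ℂ) ^ a) * (m : ℂ)) :
    ℓ ^ a ∣ 24 := by
  have hp : p.Prime := Fact.out
  have : NeZero p := ⟨hp.ne_zero⟩
  obtain ⟨F, rfl⟩ := Fermat.Agent.S20.C0h516.mem_MF_iff_exists.mp hG
  choose! m hm using hcong
  refine Fermat.Agent.S16.H300.prime_pow_dvd_24 p hp F
    (fun n => if n = 0 then s else (ℓ : ℤ) ^ a * m n) ?_ hℓ ?_ ?_
  · intro n
    by_cases hn : n = 0
    · subst hn
      simpa using h0
    · rw [if_neg hn, hm n (Nat.one_le_iff_ne_zero.mpr hn)]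
      push_cast
      ring
  · simpa using hs
  · intro n hn
    have hn0 : n ≠ 0 := Nat.one_le_iff_ne_zero.mp hn
    rw [if_neg hn0]
    push_cast
    exact Dvd.intro _ rfl

end Fermat.Agent.S16.H497
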